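import Fermat.Agent.LT.T4.Spec
import Fermat.Agent.LT.T5.Closed

/-!
# Row LT, tower T4: the tower from the frontier of T5 (architect of T5 helper32) — Closed v3

OFF-MAIN.  `T4.Tower K 𝔫 τ = T5.Tower (AdelicAut.id K) 1 ⊤ 𝔫 τ` (`T4/Spec.lean`, helper797,
byte-identical copy): every door of `T5/Closed.lean` (v9) at `σ = id`, `l = 1`, fixed field `⊤`.
No new mathematics.  `#print axioms` = the three standard axioms.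
-/

set_option autoImplicit false

open IsDedekindDomain NumberField MeasureTheory

noncomputable section

namespace Fermat.Agent.LT.T4

open Fermat.Agent.LT.H556.A0 Fermat.Agent.LT

variable (K : Type) [Field K] [NumberField K]

attribute [local instance] Fermat.Agent.LT.T5.instMeasurableSpaceG

/-- The geometric unfolding of T4, CLOSED. -/
theorem closed_unfold (𝔫 : Ideal (𝓞 K)) (τ : G K → ℂ) :
    T5.GeomUnfold (T5.AdelicAut.id K) 1 ⊤ 𝔫 τ :=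
  T5.closed_unfold (T5.AdelicAut.id K) 1 ⊤ 𝔫 τ T5.isCyclicOfDegree_id

/-- **TOWER T4, CLOSED**: for every number field `K`, every level `𝔫 ≠ 0` and every
`K_∞`-type `τ`. -/
theorem tower_closed (𝔫 : Ideal (𝓞 K)) (τ : G K → ℂ) (h𝔫 : 𝔫 ≠ ⊥) : Tower K 𝔫 τ :=
  T5.tower_closed (T5.AdelicAut.id K) 1 ⊤ 𝔫 τ h𝔫 T5.isCyclicOfDegree_id

/-- The trace identity of T4, CLOSED. -/
theorem stf_closed (𝔫 : Ideal (𝓞 K)) (τ : G K → ℂ) (h𝔫 : 𝔫 ≠ ⊥) : STF K 𝔫 τ :=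
  T5.closed_stf (T5.AdelicAut.id K) 𝔫 τ h𝔫

/-- T5.09Z at `σ = id`: regular support up to a scalar at the regular place. -/
theorem closed_regularZ : T5.RegularOfIwahoriZ (T5.AdelicAut.id K) 1 ⊤ :=
  T5.closed_regularZ (T5.AdelicAut.id K) 1 ⊤

/-- The tower of T4 from T5.04 ALONE. -/
theorem tower_of_range (𝔫 : Ideal (𝓞 K)) (τ : G K → ℂ) (hR : T5.LeafRange 𝔫 τ) :
    Tower K 𝔫 τ :=
  T5.tower_of_range (T5.AdelicAut.id K) 1 ⊤ 𝔫 τ T5.isCyclicOfDegree_id hR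

/-- Door R. -/
theorem tower_of_rowBound (𝔫 : Ideal (𝓞 K)) (τ : G K → ℂ) (h : T5.H74.RowBoundC74 𝔫 τ) :
    Tower K 𝔫 τ :=
  T5.tower_of_rowBound (T5.AdelicAut.id K) 1 ⊤ 𝔫 τ T5.isCyclicOfDegree_id h

/-- Door S. -/
theorem tower_of_supBound (𝔫 : Ideal (𝓞 K)) (τ : G K → ℂ) (h : T5.H873.SupBoundC 𝔫 τ) :
    Tower K 𝔫 τ :=
  T5.tower_of_supBound (T5.AdelicAut.id K) 1 ⊤ 𝔫 τ T5.isCyclicOfDegree_id h

/-- Door B. -/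
theorem tower_of_kerBdd (𝔫 : Ideal (𝓞 K)) (τ : G K → ℂ) (h : T5.H40.KerBddC K 𝔫 τ) :
    Tower K 𝔫 τ :=
  T5.tower_of_kerBdd (T5.AdelicAut.id K) 1 ⊤ 𝔫 τ T5.isCyclicOfDegree_id h

/-- Door T2 (`GPSKillT`). -/
theorem tower_of_gpsKill (𝔫 : Ideal (𝓞 K)) (τ : G K → ℂ)
    (h : T2.IsKType τ → T2.GPSKillT K 𝔫 τ) : Tower K 𝔫 τ :=
  T5.tower_of_gpsKill (T5.AdelicAut.id K) 1 ⊤ 𝔫 τ T5.isCyclicOfDegree_id h

/-- Door T2 (`GPSCoreT`). -/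
theorem tower_of_gpsCore (𝔫 : Ideal (𝓞 K)) (τ : G K → ℂ)
    (h : T2.IsKType τ → T2.GPSCoreT K 𝔫 τ) : Tower K 𝔫 τ :=
  T5.tower_of_gpsCore (T5.AdelicAut.id K) 1 ⊤ 𝔫 τ T5.isCyclicOfDegree_id h

/-- Door T2, ONE leaf of tower T2. -/
theorem tower_of_leafT03 (𝔫 : Ideal (𝓞 K)) (τ : G K → ℂ) (h𝔫 : 𝔫 ≠ ⊥)
    (h03 : T2.LeafT03 K) : Tower K 𝔫 τ :=
  T5.tower_of_leafT03 (T5.AdelicAut.id K) 1 ⊤ 𝔫 τ h𝔫 T5.isCyclicOfDegree_id h03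

/-- Door A. -/
theorem tower_of_open (𝔫 : Ideal (𝓞 K)) (τ : G K → ℂ) (h𝔫 : 𝔫 ≠ ⊥) (h : T5.Open 𝔫 τ) :
    Tower K 𝔫 τ :=
  T5.tower_of_open (T5.AdelicAut.id K) 1 ⊤ 𝔫 τ h𝔫 T5.isCyclicOfDegree_id h

end Fermat.Agent.LT.T4

end
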