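import Mathlib
import Fermat.Agent.LT.H556.A0
import Fermat.Agent.LT.T5.Spec

/-!
# Row LT, tower T4 (architect helper797): the (untwisted) trace identity -- SPEC

OFF-MAIN.  Decision of the chief of T1-T7 (note of 13:17Z): **T4 := T5 at `σ = id`**.

There is ONE frame for the trace identities, the frame of `LT/T5/Spec.lean` **v4** (helper32,
origin/helper32@eb7e4c138, sha256 f2d97e70548fcdd7, byte-identical copy): a number field `K`, an
`AdelicAut K`, the fixed field as a `Subfield K`, the order `l`, the `K_∞`-type `τ`.  The untwisted trace identity over `K` (EK test functions,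
regular Iwahori support at an auxiliary place: no continuous term, no singular term) is the
instance `s = AdelicAut.id K`, `l = 1`, fixed field `⊤`.

T4 has NO sub-leaves of its own: every leaf of T5 is stated for an arbitrary `AdelicAut`, and the
owner of a T5 leaf proves it for every `s` (in particular for `AdelicAut.id K`).  The registry
rows are the rows `T5.*` of helper32.

PROVED here: `normUpTo_id`, `top` (the tower Prop of T4 from the leaves of T5 at `σ = id`);
`T5.isCyclicOfDegree_id`, `T5.autPreserves_id` are in T5 v4.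

v1 (14:10Z) = v0 re-typed for T5 v4: every Prop has the `K_∞`-type `τ` after the level.
-/

set_option autoImplicit false

open IsDedekindDomain NumberField MeasureTheory
open scoped MatrixGroups

noncomputable section

namespace Fermat.Agent.LT.T4

open Fermat.Agent.LT.H556.A0 Fermat.Agent.LT

variable (K : Type) [Field K] [NumberField K]

/-- **STF**: the trace identity over `K` for products of two Eisenstein-killing test functions
(`T5.STFsigma` at `σ = id`): `∑_i ⟨R(φ₁ ⋆ φ₂) e_i, e_i⟩ = ∫_F ∑_γ (φ₁ ⋆ φ₂)♭(x⁻¹ γ x) dx`. -/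
def STF (𝔫 : Ideal (𝓞 K)) (τ : G K → ℂ) : Prop := T5.STFsigma (T5.AdelicAut.id K) 𝔫 τ

/-- **The tower Prop of T4** at level `𝔫`: trace identity + unfolding into conjugacy classes +
regularity from regular Iwahori support (`T5.Tower` at `σ = id`, `l = 1`, fixed field `⊤`). -/
def Tower (𝔫 : Ideal (𝓞 K)) (τ : G K → ℂ) : Prop := T5.Tower (T5.AdelicAut.id K) 1 ⊤ 𝔫 τ

/-- For `σ = id` and `l = 1` the norm is the identity. -/
theorem normUpTo_id (δ : GL (Fin 2) K) : (T5.AdelicAut.id K).normUpTo 1 δ = δ := by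
  show δ * (T5.AdelicAut.id K).onRat 1 = δ
  rw [map_one, mul_one]

/-- **THE TOP OF T4**: the tower Prop from the leaves of T5 at `σ = id`. -/
theorem top (𝔫 : Ideal (𝓞 K)) (τ : G K → ℂ)
    (hA : T5.LeafAbstractTrace K) (hHS0 : T5.LeafHS0 𝔫 τ)
    (hHS : T5.LeafHS (T5.AdelicAut.id K) 𝔫 τ) (hR : T5.LeafRange 𝔫 τ)
    (hC : T5.LeafCoeff (T5.AdelicAut.id K) 𝔫 τ) (hD : T5.LeafDiag (T5.AdelicAut.id K) 𝔫 τ)
    (hfin : T5.LeafTwFinite (T5.AdelicAut.id K) 1 ⊤ 𝔫 τ)
    (hunf : T5.LeafTwUnfold (T5.AdelicAut.id K) 𝔫 τ)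
    (hreg : T5.RegularOfIwahori (T5.AdelicAut.id K) 1 ⊤) : Tower K 𝔫 τ :=
  T5.top (T5.AdelicAut.id K) 1 ⊤ 𝔫 τ T5.isCyclicOfDegree_id hA hHS0 hHS hR hC hD hfin hunf hreg

end Fermat.Agent.LT.T4

end
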